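/-
S29 row, layer M, piece `M5` in a form that AVOIDS piece `M1` (commutativity of Hecke operators)
and the frozen statement S37 (helper272).

`hasFrobModule_of_redData` : from
* reduction data `S37.H99.RedData N A ℓ hℓ` at every place over every prime `ℓ ∤ N`
  (this is exactly what the S37 row constructs; it is phrased with `heckeOperatorBar`, so no
  `HeckeAlg`-module structure and no commutativity of Hecke operators is involved),
* smoothness of the Galois action on `p`-torsion classes (piece `M3`),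
* a nonzero simultaneous eigenvector in `F ⊗ J₀(N)[p]` (piece `M4c`),
we get `HasFrobModule F (N * p) c`  (= interface `TM` of the layer-A skeleton).

Galois-equivariance of the Hecke operators is `H571.heckeOperatorBar_smul` (on main).
-/
import Fermat.Agent.S29.DefsM
import Fermat.Agent.S29.H571.HeckeGalois
import Fermat.Agent.S37.H99.Glue

set_option autoImplicit false

noncomputable section

namespace Fermat.Agent.S29.H272

open ModularCurve AlgebraicCurve
open scoped TensorProduct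

/-! ### Abstract part: eigenspaces in `F ⊗ J` -/

section Abstract

variable {J : Type} [AddCommGroup J] {F : Type} [Field F] {ι : Type}
variable (g : GQ →* Module.End ℤ J) (T : ι → Module.End ℤ J) (P : ι → Prop) (c : ι → F)

/-- The simultaneous eigenspace `{x ∈ F ⊗ J : (T i ⊗ 1) x = c i • x for all i with P i}`. -/
def eigSub : Submodule F (F ⊗[ℤ] J) where
  carrier := {x | ∀ i : ι, P i → (T i).baseChange F x = c i • x}
  zero_mem' := fun i _ => by rw [map_zero, smul_zero]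
  add_mem' := by
    intro x y hx hy i hi
    rw [map_add, hx i hi, hy i hi, smul_add]
  smul_mem' := by
    intro a x hx i hi
    rw [map_smul, hx i hi, smul_comm]

theorem mem_eigSub (x : F ⊗[ℤ] J) :
    x ∈ eigSub (F := F) T P c ↔ ∀ i : ι, P i → (T i).baseChange F x = c i • x :=
  Iff.rfl

variable (hgT : ∀ (σ : GQ) (i : ι), g σ * T i = T i * g σ)

include hgT in
theorem baseChange_mem_eigSub (σ : GQ) {x : F ⊗[ℤ] J} (hx : x ∈ eigSub (F := F) T P c) :
    (g σ).baseChange F x ∈ eigSub (F := F) T P c := by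
  intro i hi
  have h := congrArg (fun f : Module.End ℤ J => LinearMap.baseChange F f x) (hgT σ i)
  simp only [Module.End.mul_eq_comp, LinearMap.baseChange_comp, LinearMap.comp_apply] at h
  rw [← h, hx i hi, map_smul]

/-- The representation of `G_ℚ` on the eigenspace. -/
def eigRep : GQ →* Module.End F (eigSub (F := F) T P c) where
  toFun σ := ((g σ).baseChange F).restrict (fun _ hx => baseChange_mem_eigSub g T P c hgT σ hx)
  map_one' := by
    ext x
    rw [LinearMap.coe_restrict_apply, map_one, Module.End.one_eq_id, LinearMap.baseChange_id]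
    rfl
  map_mul' σ τ := by
    ext x
    rw [LinearMap.coe_restrict_apply, map_mul, Module.End.mul_eq_comp, LinearMap.baseChange_comp]
    rfl

@[simp] theorem coe_eigRep (σ : GQ) (x : eigSub (F := F) T P c) :
    ((eigRep g T P c hgT σ x : eigSub (F := F) T P c) : F ⊗[ℤ] J)
      = (g σ).baseChange F (x : F ⊗[ℤ] J) :=
  rfl

omit hgT in
/-- Smoothness passes to the tensor product. -/
theorem exists_level_baseChange
    (hsm : ∀ y : J, ∃ L : IntermediateField ℚ (AlgebraicClosure ℚ), FiniteDimensional ℚ L ∧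
      ∀ σ : GQ, (∀ z ∈ L, σ z = z) → g σ y = y) (x : F ⊗[ℤ] J) :
    ∃ L : IntermediateField ℚ (AlgebraicClosure ℚ), FiniteDimensional ℚ L ∧
      ∀ σ : GQ, (∀ z ∈ L, σ z = z) → (g σ).baseChange F x = x := by
  induction x using TensorProduct.induction_on with
  | zero => exact ⟨⊥, inferInstance, fun σ _ => map_zero _⟩
  | tmul a y =>
    obtain ⟨L, hL, hfix⟩ := hsm y
    refine ⟨L, hL, fun σ hσ => ?_⟩
    rw [LinearMap.baseChange_tmul, hfix σ hσ]
  | add x y hx hy =>
    obtain ⟨L₁, hL₁, h₁⟩ := hx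
    obtain ⟨L₂, hL₂, h₂⟩ := hy
    refine ⟨L₁ ⊔ L₂, IntermediateField.finiteDimensional_sup L₁ L₂, fun σ hσ => ?_⟩
    rw [map_add, h₁ σ (fun y hy => hσ y ((le_sup_left : L₁ ≤ L₁ ⊔ L₂) hy)),
      h₂ σ (fun y hy => hσ y ((le_sup_right : L₂ ≤ L₁ ⊔ L₂) hy))]

theorem isSmoothRep_eigRep
    (hsm : ∀ y : J, ∃ L : IntermediateField ℚ (AlgebraicClosure ℚ), FiniteDimensional ℚ L ∧
      ∀ σ : GQ, (∀ z ∈ L, σ z = z) → g σ y = y) :
    IsSmoothRep (eigRep (F := F) g T P c hgT) := by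
  intro y
  obtain ⟨L, hL, hfix⟩ := exists_level_baseChange (F := F) g hsm (y : F ⊗[ℤ] J)
  exact ⟨L, hL, fun σ hσ => Subtype.ext (hfix σ hσ)⟩

theorem eigRep_eq_one {σ : GQ} (h : g σ = 1) : eigRep (F := F) g T P c hgT σ = 1 := by
  ext y
  rw [coe_eigRep, h, Module.End.one_eq_id, LinearMap.baseChange_id]
  rfl

theorem eigRep_quadratic {σ : GQ} {i : ι} (hi : P i) {n : ℕ}
    (h : g σ * g σ - T i * g σ + (n : ℤ) • (1 : Module.End ℤ J) = 0) :
    eigRep (F := F) g T P c hgT σ * eigRep (F := F) g T P c hgT σ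
      - c i • eigRep (F := F) g T P c hgT σ
      + (n : F) • (1 : Module.End F (eigSub (F := F) T P c)) = 0 := by
  ext y
  have hrel := congrArg (fun f : Module.End ℤ J => LinearMap.baseChange F f (y : F ⊗[ℤ] J)) h
  simp only [Module.End.mul_eq_comp, Module.End.one_eq_id, LinearMap.baseChange_add,
    LinearMap.baseChange_sub, LinearMap.baseChange_comp, LinearMap.baseChange_smul,
    LinearMap.baseChange_id, LinearMap.baseChange_zero, LinearMap.add_apply,
    LinearMap.sub_apply, LinearMap.comp_apply, LinearMap.smul_apply, LinearMap.id_apply,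
    LinearMap.zero_apply] at hrel
  have hmem := baseChange_mem_eigSub g T P c hgT σ y.2 i hi
  simp only [LinearMap.add_apply, LinearMap.sub_apply, Module.End.mul_apply,
    LinearMap.smul_apply, Module.End.one_apply, LinearMap.zero_apply, Submodule.coe_add,
    Submodule.coe_sub, Submodule.coe_smul, coe_eigRep, ZeroMemClass.coe_zero]
  rw [← hmem]
  have e : ((n : F)) • (y : F ⊗[ℤ] J) = (n : ℤ) • (y : F ⊗[ℤ] J) := by
    rw [natCast_zsmul, Nat.cast_smul_eq_nsmul]
  rw [e]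
  exact hrel

end Abstract

/-! ### The concrete module `J₀(N)[p]` -/

/-- Output of the S37 row: reduction data at every place over every prime not dividing `N`. -/
def RedStatement (N : ℕ) [NeZero N] : Prop :=
  ∀ ℓ : ℕ, (hℓ : ℓ.Prime) → ¬ ℓ ∣ N → ∀ A : VQ, A.LiesOverPrime ℓ →
    Nonempty (Fermat.Agent.S37.H99.RedData N A ℓ hℓ)

/-- Piece `M3` restricted to `p`-torsion classes: every `p`-torsion class of `J₀(N)(ℚ̄)` is fixed
by an open subgroup of `G_ℚ`. -/
def SmoothTorsion (N : ℕ) [NeZero N] (p : ℕ) : Prop :=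
  ∀ x : JZero N, (p : ℤ) • x = 0 →
    ∃ L : IntermediateField ℚ (AlgebraicClosure ℚ), FiniteDimensional ℚ L ∧
      ∀ σ : GQ, (∀ y ∈ L, σ y = y) → σ • x = x

/-- Output of piece `M4c`: a nonzero simultaneous eigenvector of the Hecke operators `T_ℓ ⊗ 1`,
`ℓ ∤ N p`, in `F ⊗ J₀(N)[p]` with eigenvalues `c ℓ`. -/
def HasEigenclass (N : ℕ) [NeZero N] (p : ℕ) (F : Type) [Field F] (c : ℕ → F) : Prop :=
  ∃ x : F ⊗[ℤ] Jp N p, x ≠ 0 ∧ ∀ ℓ : Nat.Primes, ¬ (ℓ : ℕ) ∣ N * p →
    (heckeJp N p ℓ).baseChange F x = c ℓ • x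

section Concrete

variable (N : ℕ) [NeZero N] (p : ℕ)

/-- The Galois action on `J₀(N)[p]` as a monoid homomorphism. -/
def galJpHom : GQ →* Module.End ℤ (Jp N p) where
  toFun σ := galJp N p σ
  map_one' := by
    refine LinearMap.ext fun x => Subtype.ext ?_
    show (1 : GQ) • (x : JZero N) = (x : JZero N)
    exact one_smul _ _
  map_mul' σ τ := by
    refine LinearMap.ext fun x => Subtype.ext ?_
    show (σ * τ) • (x : JZero N) = σ • τ • (x : JZero N)
    exact mul_smul _ _ _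

theorem coe_galJpHom (σ : GQ) (x : Jp N p) :
    ((galJpHom N p σ x : Jp N p) : JZero N) = σ • (x : JZero N) := rfl

theorem galJpHom_mul_heckeJp (σ : GQ) (ℓ : Nat.Primes) :
    galJpHom N p σ * heckeJp N p ℓ = heckeJp N p ℓ * galJpHom N p σ := by
  refine LinearMap.ext fun x => Subtype.ext ?_
  show σ • heckeOperatorBar N ℓ (x : JZero N) = heckeOperatorBar N ℓ (σ • (x : JZero N))
  exact (H571.heckeOperatorBar_smul N ℓ σ (x : JZero N)).symm

variable {N p}

theorem coprime_of_not_dvd_mul {ℓ : ℕ} (hℓ : ℓ.Prime) (hℓNp : ¬ ℓ ∣ N * p) : p.Coprime ℓ :=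
  Nat.coprime_comm.mp ((Nat.Prime.coprime_iff_not_dvd hℓ).mpr
    (fun h => hℓNp (Dvd.dvd.mul_left h N)))

/-- A `p`-torsion class with trivial reduction at `ℓ ∤ N p` is trivial. -/
theorem eq_zero_of_red_eq_zero {ℓ : ℕ} {hℓ : ℓ.Prime} {A : VQ}
    (D : Fermat.Agent.S37.H99.RedData N A ℓ hℓ) (hcop : p.Coprime ℓ) (w : Jp N p)
    (h : D.red (w : JZero N) = 0) : w = 0 := by
  refine Subtype.ext (D.inj_torsion p (w : JZero N) hcop ?_ h)
  have hw : (p : ℤ) • (w : JZero N) = 0 := (Submodule.mem_torsionBy_iff _ _).1 w.2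
  rwa [natCast_zsmul] at hw

/-- Inertia at `ℓ ∤ N p` acts trivially on `J₀(N)[p]`. -/
theorem galJpHom_eq_one_of_mem_inertia (hred : RedStatement N) {ℓ : ℕ} (hℓ : ℓ.Prime)
    (hℓNp : ¬ ℓ ∣ N * p) {A : VQ} (hA : A.LiesOverPrime ℓ) {σ : GQ}
    (hσ : σ ∈ A.inertiaSubgroupIn ℚ) : galJpHom N p σ = 1 := by
  obtain ⟨D⟩ := hred ℓ hℓ (fun h => hℓNp (Dvd.dvd.mul_right h p)) A hA
  refine LinearMap.ext fun x => sub_eq_zero.1 ?_
  refine eq_zero_of_red_eq_zero D (coprime_of_not_dvd_mul hℓ hℓNp) _ ?_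
  show D.red (σ • (x : JZero N) - (x : JZero N)) = 0
  rw [map_sub, D.inertia σ hσ, sub_self]

/-- The Eichler–Shimura relation on `J₀(N)[p]` for a Frobenius element at `ℓ ∤ N p`. -/
theorem galJpHom_relation (hred : RedStatement N) {ℓ : ℕ} (hℓ : ℓ.Prime)
    (hℓNp : ¬ ℓ ∣ N * p) {A : VQ} (hA : A.LiesOverPrime ℓ) {σ : GQ}
    (hσ : A.IsFrobeniusAt σ ℓ) :
    galJpHom N p σ * galJpHom N p σ - heckeJp N p ⟨ℓ, hℓ⟩ * galJpHom N p σ
      + (ℓ : ℤ) • (1 : Module.End ℤ (Jp N p)) = 0 := by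
  obtain ⟨D⟩ := hred ℓ hℓ (fun h => hℓNp (Dvd.dvd.mul_right h p)) A hA
  refine LinearMap.ext fun x => ?_
  refine eq_zero_of_red_eq_zero D (coprime_of_not_dvd_mul hℓ hℓNp) _ ?_
  show D.red (σ • σ • (x : JZero N) - heckeOperatorBar N ⟨ℓ, hℓ⟩ (σ • (x : JZero N))
    + (ℓ : ℤ) • (x : JZero N)) = 0
  rw [natCast_zsmul]
  exact D.relation σ hσ (x : JZero N)

/-- **Piece `M5`, `RedData` form** (no commutativity of Hecke operators, no S37 statement). -/
theorem hasFrobModule_of_redData (hred : RedStatement N) (hsm : SmoothTorsion N p)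
    {F : Type} [Field F] (c : ℕ → F) (hx : HasEigenclass N p F c) :
    HasFrobModule F (N * p) c := by
  obtain ⟨x, hx0, hxe⟩ := hx
  let P : Nat.Primes → Prop := fun ℓ => ¬ (ℓ : ℕ) ∣ N * p
  let c' : Nat.Primes → F := fun ℓ => c ℓ
  have hgT := galJpHom_mul_heckeJp N p
  have hsm' : ∀ y : Jp N p, ∃ L : IntermediateField ℚ (AlgebraicClosure ℚ),
      FiniteDimensional ℚ L ∧ ∀ σ : GQ, (∀ z ∈ L, σ z = z) → galJpHom N p σ y = y := by
    intro y
    obtain ⟨L, hL, hfix⟩ := hsm (y : JZero N) ((Submodule.mem_torsionBy_iff _ _).1 y.2)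
    exact ⟨L, hL, fun σ hσ => Subtype.ext (hfix σ hσ)⟩
  refine ⟨eigSub (F := F) (heckeJp N p) P c', inferInstance, inferInstance,
    eigRep (galJpHom N p) (heckeJp N p) P c' hgT, ?_, ?_, ?_, ?_⟩
  · exact ⟨⟨⟨x, hxe⟩, 0, fun h => hx0 (congrArg Subtype.val h)⟩⟩
  · exact isSmoothRep_eigRep (galJpHom N p) (heckeJp N p) P c' hgT hsm'
  · intro ℓ hℓ hℓNp A hA σ hσ
    exact eigRep_eq_one (galJpHom N p) (heckeJp N p) P c' hgT
      (galJpHom_eq_one_of_mem_inertia hred hℓ hℓNp hA hσ)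
  · intro ℓ hℓ hℓNp A hA σ hσ
    exact eigRep_quadratic (galJpHom N p) (heckeJp N p) P c' hgT (i := ⟨ℓ, hℓ⟩) hℓNp
      (galJpHom_relation hred hℓ hℓNp hA hσ)

end Concrete

end Fermat.Agent.S29.H272
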