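import Fermat.Agent.S29.H452.NormProd
import Fermat.Agent.S29.M4b.H822.Basic

/-!
# S29 / M4b / K4-HECKE, part (3) (helper272): the character of `∏ₓ U ∘ αₓ`

`heckeProd ℓ U τ = ∏ x : OnePoint (ZMod ℓ), U (heckeRep ℓ x • τ)` (Prelude representatives
`(ℓ 0; 0 1)`, `(1 b; 0 ℓ)` as elements of `GL₂(ℝ)`).

* `idxEquiv ℓ : Option (Fin ℓ) ≃ OnePoint (ZMod ℓ)` matches the integer representatives
  `S29.heckeRep ℓ` of `DefsM` with the Prelude ones (`heckeRep_idxEquiv`);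
* `hasChar_heckeProd` : if `U` has character `c` and `c'` is the transfer of `c`, then
  `heckeProd ℓ U` has character `c'`.
-/

set_option autoImplicit false

noncomputable section

open ModularCurve AlgebraicCurve CongruenceSubgroup UpperHalfPlane ModularForm
  Matrix.SpecialLinearGroup
open scoped MatrixGroups Manifold

namespace Fermat.Agent.S29.H272

open Fermat.Agent.S24 Fermat.Agent.S24.H624
open Fermat.Agent.S29 Fermat.Agent.S29.M4b Fermat.Agent.S29.H452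

/-- The Prelude representatives, as elements of `GL₂(ℝ)`, indexed by `OnePoint (ZMod ℓ)`. -/
abbrev repGL (ℓ : ℕ) (x : OnePoint (ZMod ℓ)) : GL (Fin 2) ℝ :=
  P2MW.S_ModularForm_heckeT_slash_eq_self_of_mem_Gamma0.ModularForm.HeckeSlashInvariance.heckeRep
    ℓ x

/-- The product `∏ₓ U ∘ αₓ` over the Hecke representatives. -/
def heckeProd (ℓ : ℕ) [NeZero ℓ] (U : ℍ → ℂ) : ℍ → ℂ :=
  fun τ => ∏ x : OnePoint (ZMod ℓ), U (repGL ℓ x • τ)

theorem heckeProd_apply (ℓ : ℕ) [NeZero ℓ] (U : ℍ → ℂ) (τ : ℍ) :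
    heckeProd ℓ U τ = ∏ x : OnePoint (ZMod ℓ), U (repGL ℓ x • τ) := rfl

theorem heckeProd_pow (ℓ : ℕ) [NeZero ℓ] (U : ℍ → ℂ) (n : ℕ) :
    heckeProd ℓ (fun τ => U τ ^ n) = fun τ => heckeProd ℓ U τ ^ n := by
  funext τ
  rw [heckeProd_apply, heckeProd_apply, Finset.prod_pow]

/-- Evaluation at a point as a ring hom on `holoRing`. -/
def evalHolo (τ : ℍ) : holoRing →+* ℂ where
  toFun h := (h : ℍ → ℂ) τ
  map_one' := rfl
  map_mul' _ _ := rfl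
  map_zero' := rfl
  map_add' _ _ := rfl

/-- The product `∏ₓ h ∘ αₓ` as an element of `holoRing`. -/
def heckeProdHol (ℓ : ℕ) [NeZero ℓ] (h : holoRing) : holoRing :=
  ∏ x : OnePoint (ZMod ℓ), precompGL (repGL ℓ x) (det_heckeRep_pos x) h

theorem coe_heckeProdHol (ℓ : ℕ) [NeZero ℓ] (h : holoRing) :
    ((heckeProdHol ℓ h : holoRing) : ℍ → ℂ) = heckeProd ℓ (h : ℍ → ℂ) := by
  funext τ
  show evalHolo τ (heckeProdHol ℓ h) = _
  rw [heckeProdHol, map_prod, heckeProd_apply]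
  rfl

theorem mdiff_heckeProd (ℓ : ℕ) [NeZero ℓ] {U : ℍ → ℂ} (hU : MDifferentiable 𝓘(ℂ) 𝓘(ℂ) U) :
    MDifferentiable 𝓘(ℂ) 𝓘(ℂ) (heckeProd ℓ U) := by
  have h := coe_heckeProdHol ℓ ⟨U, hU⟩
  rw [← h]
  exact (heckeProdHol ℓ ⟨U, hU⟩).2

/-- `[heckeProd ℓ U] = ∏ₓ merGL αₓ [U]` in `MerH`. -/
theorem algebraMap_heckeProd (ℓ : ℕ) [NeZero ℓ] {U : ℍ → ℂ} (hU : MDifferentiable 𝓘(ℂ) 𝓘(ℂ) U) :
    algebraMap holoRing MerH ⟨heckeProd ℓ U, mdiff_heckeProd ℓ hU⟩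
      = ∏ x : OnePoint (ZMod ℓ),
          merGL (repGL ℓ x) (det_heckeRep_pos x) (algebraMap holoRing MerH ⟨U, hU⟩) := by
  have h1 : (⟨heckeProd ℓ U, mdiff_heckeProd ℓ hU⟩ : holoRing) = heckeProdHol ℓ ⟨U, hU⟩ :=
    Subtype.ext (coe_heckeProdHol ℓ ⟨U, hU⟩).symm
  rw [h1, heckeProdHol, map_prod]
  exact Finset.prod_congr rfl fun x _ => (merGL_algebraMap _ _ _).symm

/-! ### Matching the integer representatives of `DefsM` with the Prelude ones -/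

/-- The index bijection `Option (Fin ℓ) ≃ OnePoint (ZMod ℓ)`. -/
def idxEquiv (ℓ : ℕ) [NeZero ℓ] : Option (Fin ℓ) ≃ OnePoint (ZMod ℓ) :=
  Equiv.optionCongr (ZMod.finEquiv ℓ).toEquiv

theorem val_finEquiv (ℓ : ℕ) [NeZero ℓ] (b : Fin ℓ) : (ZMod.finEquiv ℓ b).val = (b : ℕ) := by
  cases ℓ with
  | zero => exact absurd rfl (NeZero.ne 0)
  | succ n => rfl

theorem repGL_idxEquiv (ℓ : ℕ) [NeZero ℓ] (i : Option (Fin ℓ)) :
    ((repGL ℓ (idxEquiv ℓ i) : GL (Fin 2) ℝ) : Matrix (Fin 2) (Fin 2) ℝ)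
      = (Fermat.Agent.S29.heckeRep ℓ i).map (Int.cast : ℤ → ℝ) := by
  cases i with
  | none =>
      show ((heckeDiagMatrix ℓ : GL (Fin 2) ℝ) : Matrix (Fin 2) (Fin 2) ℝ) = _
      rw [val_heckeDiagMatrix (NeZero.ne ℓ)]
      ext a b
      fin_cases a <;> fin_cases b <;> simp [Fermat.Agent.S29.heckeRep]
  | some b =>
      show ((heckeMatrix ℓ (ZMod.finEquiv ℓ b).val : GL (Fin 2) ℝ) : Matrix (Fin 2) (Fin 2) ℝ) = _
      rw [val_heckeMatrix (NeZero.ne ℓ), val_finEquiv]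
      ext a c
      fin_cases a <;> fin_cases c <;> simp [Fermat.Agent.S29.heckeRep]

theorem coe_G0_GL {N : ℕ} (γ : G0 N) :
    ((((γ : SL(2, ℤ)) : GL (Fin 2) ℝ)) : Matrix (Fin 2) (Fin 2) ℝ)
      = γ.mat.map (Int.cast : ℤ → ℝ) := rfl

theorem repGL_mul_of_isHeckeFactor {N ℓ : ℕ} [NeZero ℓ] {γ δ : G0 N} {i j : Option (Fin ℓ)}
    (h : IsHeckeFactor ℓ γ i (j, δ)) :
    repGL ℓ (idxEquiv ℓ i) * ((γ : SL(2, ℤ)) : GL (Fin 2) ℝ)
      = ((δ : SL(2, ℤ)) : GL (Fin 2) ℝ) * repGL ℓ (idxEquiv ℓ j) := by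
  apply Units.ext
  rw [Units.val_mul, Units.val_mul, repGL_idxEquiv, repGL_idxEquiv, coe_G0_GL, coe_G0_GL,
    ← Matrix.map_mul_intCast, ← Matrix.map_mul_intCast]
  congr 1

theorem repGL_smul_smul {N ℓ : ℕ} [NeZero ℓ] {γ δ : G0 N} {i j : Option (Fin ℓ)}
    (h : IsHeckeFactor ℓ γ i (j, δ)) (τ : ℍ) :
    repGL ℓ (idxEquiv ℓ i) • ((γ : SL(2, ℤ)) • τ)
      = (δ : SL(2, ℤ)) • (repGL ℓ (idxEquiv ℓ j) • τ) := by
  rw [ModularGroup.sl_moeb, ModularGroup.sl_moeb, ← mul_smul, ← mul_smul,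
    repGL_mul_of_isHeckeFactor h]

/-! ### The character of `heckeProd ℓ U` -/

theorem zetaP_pow_val_sum (p : ℕ) [NeZero p] {ι : Type*} (s : Finset ι) (a : ι → ZMod p) :
    zetaP p ^ (∑ i ∈ s, a i).val = ∏ i ∈ s, zetaP p ^ (a i).val := by
  classical
  induction s using Finset.induction_on with
  | empty => simp
  | insert i s hi ih =>
      rw [Finset.sum_insert hi, Finset.prod_insert hi, H822.zetaP_pow_val_add, ih]

/-- **Part (3)**: if `U` has character `c` and `c'` is the transfer of `c` along the Hecke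
factorisations `αᵢ γ = δᵢ α_{π i}`, then `∏ₓ U ∘ αₓ` has character `c'`. -/
theorem hasChar_heckeProd {N p ℓ : ℕ} [NeZero p] [NeZero ℓ] {c c' : G0 N → ZMod p} {U : ℍ → ℂ}
    (hU : HasChar N p c U) (htr : IsTransfer N ℓ c c')
    (hfac : ∀ γ : G0 N, ∃ (π : Equiv.Perm (Option (Fin ℓ))) (δ : Option (Fin ℓ) → G0 N),
      ∀ i, IsHeckeFactor ℓ γ i (π i, δ i)) :
    HasChar N p c' (heckeProd ℓ U) := by
  intro γ τ
  obtain ⟨π, δ, hπ⟩ := hfac γ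
  rw [htr γ π δ hπ, zetaP_pow_val_sum, heckeProd_apply, heckeProd_apply,
    ← Equiv.prod_comp (idxEquiv ℓ) (fun x => U (repGL ℓ x • (γ : SL(2, ℤ)) • τ)),
    ← Equiv.prod_comp (π.trans (idxEquiv ℓ)) (fun x => U (repGL ℓ x • τ)),
    ← Finset.prod_mul_distrib]
  refine Finset.prod_congr rfl fun i _ => ?_
  show U (repGL ℓ (idxEquiv ℓ i) • (γ : SL(2, ℤ)) • τ)
    = zetaP p ^ (c (δ i)).val * U (repGL ℓ (idxEquiv ℓ (π i)) • τ)
  rw [repGL_smul_smul (hπ i), hU (δ i)]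

end Fermat.Agent.S29.H272
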