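import Fermat.Agent.S29.H272.RealAn
import Fermat.Agent.S29.H272.HeckeChar
import Fermat.Agent.S29.M4b.Top
import Fermat.Agent.S29.HI

/-!
# S29 / M4b / PIECE `K4-HECKE` (helper272): assembly

`pieceHecke_of_heckeGood` : `M4b.PieceHecke N p` (exact `Prop` of `M4b/Top.lean`) from the single
analytic input

`HeckeGood N p` : for every prime `ℓ ∤ N p` and every good function `G` (`S24.H648.goodRing N`),
the product `heckeProd ℓ G = ∏ₓ G ∘ αₓ` over the `ℓ + 1` Hecke representatives is again good.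

Proof: from a Kummer datum `(f, t, U)` of `x` we take `(Norm_α (β f), Norm_α (β t), ∏ₓ U ∘ αₓ)`:

* `T_ℓ x` is the Kummer class of `Norm_α (β f)` (`H455.IsKummerClass.correspondence` + `HI`);
* `an (Norm_α (β u)) = ∏ₓ (an u) ∘ αₓ` (`H452.an_normAlong_beta`) and `Realises ↔ an` (`RealAn`);
* `∏ₓ U ∘ αₓ` has the transferred character (`HeckeChar`).
-/

set_option autoImplicit false

noncomputable section

open ModularCurve AlgebraicCurve CongruenceSubgroup UpperHalfPlane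
open scoped MatrixGroups Manifold

namespace Fermat.Agent.S29.H272

open Fermat.Agent.S24 Fermat.Agent.S24.H997 Fermat.Agent.S24.H648 Fermat.Agent.S24.H624
open Fermat.Agent.S29 Fermat.Agent.S29.M4b Fermat.Agent.S29.H452 Fermat.Agent.S29.H455

/-- The analytic input of `K4-HECKE`: products over the Hecke representatives of good functions
are good. -/
def HeckeGood (N p : ℕ) : Prop :=
  ∀ (ℓ : ℕ) [NeZero ℓ], ℓ.Prime → ¬ ℓ ∣ N * p →
    ∀ G : ℍ → ℂ, G ∈ goodRing N → heckeProd ℓ G ∈ goodRing N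

variable {N : ℕ} [NeZero N]

/-- The Prelude Hecke operator sends the Kummer class of `f` to that of `Norm_α (β f)`. -/
theorem isKummerClass_heckeOperatorBar (ℓ : Nat.Primes) [NeZero (ℓ : ℕ)] {n : ℤ} {f : FF N}
    {x : JZero N} (hx : IsKummerClass n f x) :
    IsKummerClass n (normAlong (heckeAlphaBar Kbar N ℓ) (heckeBetaBar Kbar N ℓ f))
      (heckeOperatorBar N ℓ x) := by
  obtain ⟨hα, hβ, hP, hfin, hFI, hN⟩ := heckeInputsAlong_bar N (ℓ : ℕ) ℓ.2
  have := hP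
  rw [heckeOperatorBar_apply, heckeOperatorAlong_eq hα hβ hFI hfin hN]
  exact hx.correspondence (heckeBetaBar Kbar N ℓ) (heckeAlphaBar Kbar N ℓ) hβ hα hFI hfin hN

theorem normAlong_beta_ne_zero (ℓ : ℕ) [NeZero ℓ] (hℓ : ℓ.Prime) {t : FF N} (ht : t ≠ 0) :
    normAlong (heckeAlphaBar Kbar N ℓ) (heckeBetaBar Kbar N ℓ t) ≠ 0 := by
  obtain ⟨hα, hβ, hP, hfin, hFI, hN⟩ := heckeInputsAlong_bar N ℓ hℓ
  exact normAlong_ne_zero _ hfin ((map_ne_zero _).mpr ht)

theorem normAlong_beta_mul_pow (ℓ : ℕ) [NeZero ℓ] (f t : FF N) (p : ℕ) :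
    normAlong (heckeAlphaBar Kbar N ℓ) (heckeBetaBar Kbar N ℓ f)
        * normAlong (heckeAlphaBar Kbar N ℓ) (heckeBetaBar Kbar N ℓ t) ^ p
      = normAlong (heckeAlphaBar Kbar N ℓ) (heckeBetaBar Kbar N ℓ (f * t ^ p)) := by
  rw [map_mul, map_pow, normAlong_mul, normAlong_pow]

/-- Realisations under the Hecke norm: if `G` realises `u` and `∏ₓ G ∘ αₓ` is good, then it
realises `Norm_α (β u)`. -/
theorem realises_normAlong_beta {ℓ : ℕ} [NeZero ℓ] (hℓ : ℓ.Prime) (hℓN : ¬ ℓ ∣ N) {u : FF N}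
    {G : ℍ → ℂ} (h : Realises N u G) (hG : heckeProd ℓ G ∈ goodRing N) :
    Realises N (normAlong (heckeAlphaBar Kbar N ℓ) (heckeBetaBar Kbar N ℓ u)) (heckeProd ℓ G) := by
  apply realises_of_an_eq hG
  rw [an_normAlong_beta hℓ hℓN, an_eq_of_realises h, ← algebraMap_heckeProd ℓ h.1.1]

/-- **PIECE `K4-HECKE`** from the analytic input `HeckeGood`. -/
theorem pieceHecke_of_heckeGood (N : ℕ) [NeZero N] (p : ℕ) [NeZero p] (hgood : HeckeGood N p) :
    PieceHecke N p := by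
  intro ℓ hℓ hfac c c' hc htr x hx
  have : NeZero (ℓ : ℕ) := ⟨ℓ.2.ne_zero⟩
  have hℓN : ¬ (ℓ : ℕ) ∣ N := fun h => hℓ (Dvd.dvd.mul_right h p)
  obtain ⟨f, t, U, ht, hk, hU, hr⟩ := hx
  have hG : heckeProd (ℓ : ℕ) (fun τ => U τ ^ p) ∈ goodRing N :=
    hgood (ℓ : ℕ) ℓ.2 hℓ _ hU.pow_mem
  have hreal := realises_normAlong_beta ℓ.2 hℓN hr hG
  rw [heckeProd_pow] at hG hreal
  rw [← normAlong_beta_mul_pow] at hreal
  have ht' := normAlong_beta_ne_zero (ℓ : ℕ) ℓ.2 ht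
  have hk' := isKummerClass_heckeOperatorBar ℓ hk
  refine ⟨_, _, heckeProd (ℓ : ℕ) U, ht', hk',
    ⟨mdiff_heckeProd _ hU.mdiff, ?_, hasChar_heckeProd hU.hasChar htr hfac, hG⟩, hreal⟩
  have hne := H822.realises_ne_zero hreal (mul_ne_zero hk'.ne_zero (pow_ne_zero _ ht'))
  by_contra hh
  refine hne (funext fun τ => ?_)
  have h0 : heckeProd (ℓ : ℕ) U τ = 0 := not_not.mp fun hτ => hh ⟨τ, hτ⟩
  show heckeProd (ℓ : ℕ) U τ ^ p = 0
  rw [h0, zero_pow (NeZero.ne p)]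

/-- `K4-HECKE` for prime moduli (the shape consumed by `M4b.M4bStatement_of_pieces`). -/
theorem pieceHecke_of_heckeGood_prime
    (hgood : ∀ (N : ℕ) [NeZero N] (p : ℕ), p.Prime → HeckeGood N p) :
    ∀ (N : ℕ) [NeZero N] (p : ℕ), p.Prime → PieceHecke N p := by
  intro N _ p hp
  have : NeZero p := ⟨hp.ne_zero⟩
  exact pieceHecke_of_heckeGood N p (hgood N p hp)

end Fermat.Agent.S29.H272
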