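import Fermat.Agent.S29.H452.NormAn
import Fermat.Agent.S29.M4b.H822.Basic
import Fermat.Agent.S29.H282.K2Ana

/-!
# S29 / M4b / K4-HECKE, part (1) (helper272): `Realises` versus the analytic realisation `an`

For a good function `G` (`G ∈ S24.H648.goodRing N`) and `u ∈ FF N`:

`Realises N u G  ↔  an N u = [G]` in `MerH = Frac(holomorphic functions on ℍ)`

(`realises_iff_an_eq`; the two directions are `an_eq_of_realises`, `realises_of_an_eq`).
-/

set_option autoImplicit false

noncomputable section

open ModularCurve AlgebraicCurve CongruenceSubgroup UpperHalfPlane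
open scoped MatrixGroups Manifold

namespace Fermat.Agent.S29.H272

open Fermat.Agent.S24 Fermat.Agent.S24.H997 Fermat.Agent.S24.H648 Fermat.Agent.S24.H708
open Fermat.Agent.S24.H624 Fermat.Agent.S24.H528
open Fermat.Agent.S29 Fermat.Agent.S29.M4b Fermat.Agent.S29.H452

variable {N : ℕ} [NeZero N]

omit [NeZero N] in
theorem isParHom_zero_one : IsParHom (0 : G0 N → ZMod 1) :=
  ⟨fun _ _ => by simp, fun _ _ => rfl, fun _ _ _ _ => rfl⟩

/-- A good function lies in the S24 ring `holN N`. -/
theorem mem_holN_of_mem_goodRing {G : ℍ → ℂ} (hG : G ∈ goodRing N) : G ∈ holN N := by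
  by_cases h0 : G = 0
  · rw [h0]
    exact (holN N).zero_mem
  · have hne : ∃ τ : ℍ, G τ ≠ 0 := by
      by_contra hh
      exact h0 (funext fun τ => not_not.mp fun hτ => hh ⟨τ, hτ⟩)
    have hT : IsTwisted N 1 (0 : G0 N → ZMod 1) G :=
      ⟨hG.1, hne, fun γ τ => by
        rw [hG.2.1 _ γ.2 τ]
        simp, by simpa using hG⟩
    exact H282.mem_holN_of_isTwisted (p := 1) isParHom_zero_one hT

/-- A good function as an element of `(holBase N).Hol`. -/
def goodHol {G : ℍ → ℂ} (hG : G ∈ goodRing N) : (holBase N).Hol :=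
  ⟨G, mem_holN_of_mem_goodRing hG⟩

theorem holInc_goodHol {G : ℍ → ℂ} (hG : G ∈ goodRing N) :
    holInc N (goodHol hG) = ⟨G, hG.1⟩ := rfl

/-- The `q^{1/N}`-expansion of a good function is its `q`-expansion with `q ↦ z^N`. -/
theorem qexp_goodHol {G : ℍ → ℂ} (hG : G ∈ goodRing N) :
    (holBase N).qexp (goodHol hG) = qExpand ℂ N (qexpFun 1 G) := by
  have hq : HasQExp 1 G (qexpFun 1 G) := H882.hasQExp_of_mem_goodRing hG
  have hinf : InfExp N G (qExpand ℂ N (qexpFun 1 G)) := H282.infExp_level_of_hasQExp hq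
  exact (expInf_spec (holToExp N (goodHol hG))).unique hinf

theorem realises_iff_qexp {u : FF N} {G : ℍ → ℂ} (hG : G ∈ goodRing N) :
    Realises N u G ↔ (holBase N).qexp (goodHol hG) = HolBase.Φ N ((u : FF N) : LaurentSeries Kbar) := by
  rw [qexp_goodHol]
  constructor
  · intro h
    rw [h.2]
    rfl
  · intro h
    refine ⟨hG, ?_⟩
    exact qExpand_injective N h

attribute [local instance] isDomain_hol

theorem an_eq_iff_qexp {u : FF N} (h : (holBase N).Hol) :
    an N u = algebraMap holoRing MerH (holInc N h)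
      ↔ (holBase N).qexp h = HolBase.Φ N ((u : FF N) : LaurentSeries Kbar) := by
  rw [← qexpFrac_eFrac (holBase N) u, ← qexpFrac_algebraMap (holBase N) h,
    ← fracInc_algebraMap N h]
  show fracInc N (eFrac (holBase N) u) = _ ↔ _
  constructor
  · intro e
    rw [(fracInc N).injective e]
  · intro e
    rw [(qexpFrac (holBase N)).injective e]

/-- **Part (1)**: for a good function `G`, `Realises N u G ↔ an N u = [G]`. -/
theorem realises_iff_an_eq {u : FF N} {G : ℍ → ℂ} (hG : G ∈ goodRing N) :
    Realises N u G ↔ an N u = algebraMap holoRing MerH ⟨G, hG.1⟩ := by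
  rw [realises_iff_qexp hG, ← an_eq_iff_qexp, holInc_goodHol]

theorem an_eq_of_realises {u : FF N} {G : ℍ → ℂ} (h : Realises N u G) :
    an N u = algebraMap holoRing MerH ⟨G, h.1.1⟩ :=
  (realises_iff_an_eq h.1).mp h

theorem realises_of_an_eq {u : FF N} {G : ℍ → ℂ} (hG : G ∈ goodRing N)
    (h : an N u = algebraMap holoRing MerH ⟨G, hG.1⟩) : Realises N u G :=
  (realises_iff_an_eq hG).mpr h

end Fermat.Agent.S29.H272
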